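import Fermat.Agent.GAL.KL.Main

/-!
# SS (S34 / S35) : semistable reduction at `q ∥ N`.  Abstract definitions (no sorry).

`L` algebraically closed field, `F / L` a function field, `v₁ v₂` TWO valuations of `F` (the two
components of the special fibre), both Gauss valuations over `L[t]`, equal on `L`.
`NN v₁ v₂ x = max (v₁ x) (v₂ x)` is the sup norm; it is ultrametric, submultiplicative, and
`NN (p(t) x) = v₁ (p(t)) NN x`.  All notions of `GAL/KL/Defs.lean` are repeated for `NN`.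
-/

set_option autoImplicit false

namespace Fermat.Agent.SS

open Polynomial Fermat.Agent.GAL.KL

variable (L : Type*) {F Γ₀ : Type*} [Field L] [Field F] [Algebra L F]
  [LinearOrderedCommGroupWithZero Γ₀]

/-- the sup norm of two valuations. -/
def NN (v₁ v₂ : Valuation F Γ₀) (x : F) : Γ₀ := max (v₁ x) (v₂ x)

/-- both valuations are Gauss valuations over `L[t]`, and they agree on the constants. -/
structure Gauss2 (v₁ v₂ : Valuation F Γ₀) (t : F) : Prop where
  g₁ : Gauss L v₁ t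
  g₂ : Gauss L v₂ t
  same : ∀ c : L, v₁ (algebraMap L F c) = v₂ (algebraMap L F c)

/-- `e` is orthonormal over `L[t]` for the sup norm. -/
def ON2 (v₁ v₂ : Valuation F Γ₀) (t : F) {d : ℕ} (e : Fin d → F) : Prop :=
  ∀ (p : Fin d → L[X]) (γ : Γ₀), NN v₁ v₂ (comb L t p e) ≤ γ ↔ ∀ i, v₁ (aeval t (p i)) ≤ γ

/-- the integral chart ring `𝔹_t = {z | z integral over L[t], NN z ≤ 1}`. -/
def BI (v₁ v₂ : Valuation F Γ₀) (t : F) : Set F := {z | IsInt L t z ∧ NN v₁ v₂ z ≤ 1}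

/-- `𝔹_t` modulo `{NN < 1}` is closed under `n`-th roots in `(O₁ ∩ O₂) / {NN < 1}`
(true when the reduced chart is a disjoint union of two normal curves). -/
def RootClosed2 (v₁ v₂ : Valuation F Γ₀) (t : F) (n : ℕ) : Prop :=
  ∀ x b : F, IsInt L t b → NN v₁ v₂ (x ^ n - b) < 1 → NN v₁ v₂ x ≤ 1 →
    ∃ b' : F, IsInt L t b' ∧ NN v₁ v₂ (x - b') < 1

/-- root closedness of the image of `𝔹_t` in the residue field of ONE of the two valuations `w`
(normality of one component of the reduced chart + `𝔹_t` surjects onto its coordinate ring). -/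
def RC (v₁ v₂ w : Valuation F Γ₀) (t : F) (n : ℕ) : Prop :=
  ∀ x b : F, b ∈ BI L v₁ v₂ t → w x ≤ 1 → w (x ^ n - b) < 1 →
    ∃ b' ∈ BI L v₁ v₂ t, w (x - b') < 1

/-- `z ∈ I₁ + I₂`, `I_i = {z ∈ 𝔹_t | v_i z < 1}` (`z` vanishes at the double points). -/
def InI (v₁ v₂ : Valuation F Γ₀) (t z : F) : Prop :=
  ∃ b₁ ∈ BI L v₁ v₂ t, ∃ b₂ ∈ BI L v₁ v₂ t, v₁ b₁ < 1 ∧ v₂ b₂ < 1 ∧ z = b₁ + b₂

/-- the two components meet transversally: `𝔹_t / (I₁ + I₂)` has no `n`-nilpotents. -/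
def Rad (v₁ v₂ : Valuation F Γ₀) (t : F) (n : ℕ) : Prop :=
  ∀ b ∈ BI L v₁ v₂ t, InI L v₁ v₂ t (b ^ n) → InI L v₁ v₂ t b

end Fermat.Agent.SS
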