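import Fermat.Agent.SS.Defs

/-!
# SS-A6 : a chart whose reduction is disconnected

If the chart ring contains approximate idempotents `ε₁ ≡ (1,0)`, `ε₂ ≡ (0,1)`, then root
closedness can be checked on each component.
-/

set_option autoImplicit false

namespace Fermat.Agent.SS

open Polynomial Fermat.Agent.GAL.KL

variable {L F Γ₀ : Type*} [Field L] [Field F] [Algebra L F] [LinearOrderedCommGroupWithZero Γ₀]
variable {v₁ v₂ : Valuation F Γ₀} {t : F}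

/-- product of something `< 1` and something `≤ 1` is `< 1`. -/
theorem Idem.mul_lt_one (v : Valuation F Γ₀) {a b : F} (ha : v a < 1) (hb : v b ≤ 1) :
    v (a * b) < 1 := by
  rw [map_mul]
  calc v a * v b ≤ v a * 1 := mul_le_mul_right hb _
    _ = v a := mul_one _
    _ < 1 := ha

/-- the one-valuation estimate: `x - (ε b + ε' b')` is small if `x ≡ b`, `ε ≡ 1`, `ε' ≡ 0`. -/
theorem Idem.glue_lt_one (v : Valuation F Γ₀) {x b b' ε ε' : F} (hx : v (x - b) < 1)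
    (hb : v b ≤ 1) (hb' : v b' ≤ 1) (hε : v (ε - 1) < 1) (hε' : v ε' < 1) :
    v (x - (ε * b + ε' * b')) < 1 := by
  have e : x - (ε * b + ε' * b') = (x - b) - ((ε - 1) * b + ε' * b') := by ring
  rw [e]
  exact Valuation.map_sub_lt _ hx
    (Valuation.map_add_lt _ (Idem.mul_lt_one v hε hb) (Idem.mul_lt_one v hε' hb'))

/-- if `v x ≤ 1` and `v (x ^ n - b) < 1` then `v b ≤ 1`. -/
theorem Idem.le_one_of_pow_sub (v : Valuation F Γ₀) {x b : F} {n : ℕ} (hx : v x ≤ 1)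
    (h : v (x ^ n - b) < 1) : v b ≤ 1 := by
  have e : b = x ^ n - (x ^ n - b) := by ring
  rw [e]
  refine Valuation.map_sub_le _ ?_ h.le
  rw [map_pow]
  exact pow_le_one₀ zero_le hx

/-- if the chart ring contains approximate idempotents `ε₁ ≡ (1,0)`, `ε₂ ≡ (0,1)`, then root
closedness can be checked on each component.  (`b' = ε₁ b'₁ + ε₂ b'₂`.) -/
theorem rootClosed2_of_idem {n : ℕ} (hRC₁ : RC L v₁ v₂ v₁ t n) (hRC₂ : RC L v₁ v₂ v₂ t n)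
    (ε₁ ε₂ : F) (h₁ : IsInt L t ε₁) (h₂ : IsInt L t ε₂)
    (h11 : v₁ (ε₁ - 1) < 1) (h12 : v₂ ε₁ < 1) (h21 : v₁ ε₂ < 1) (h22 : v₂ (ε₂ - 1) < 1) :
    RootClosed2 L v₁ v₂ t n := by
  intro x b hb hxb hx
  obtain ⟨hxb₁, hxb₂⟩ := max_lt_iff.1 hxb
  obtain ⟨hx₁, hx₂⟩ := max_le_iff.1 hx
  have hbBI : b ∈ BI L v₁ v₂ t :=
    ⟨hb, max_le_iff.2 ⟨Idem.le_one_of_pow_sub v₁ hx₁ hxb₁, Idem.le_one_of_pow_sub v₂ hx₂ hxb₂⟩⟩
  obtain ⟨b₁, ⟨hb₁i, hb₁n⟩, hb₁⟩ := hRC₁ x b hbBI hx₁ hxb₁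
  obtain ⟨b₂, ⟨hb₂i, hb₂n⟩, hb₂⟩ := hRC₂ x b hbBI hx₂ hxb₂
  obtain ⟨hb₁₁, hb₁₂⟩ := max_le_iff.1 hb₁n
  obtain ⟨hb₂₁, hb₂₂⟩ := max_le_iff.1 hb₂n
  refine ⟨ε₁ * b₁ + ε₂ * b₂, (h₁.mul hb₁i).add (h₂.mul hb₂i), max_lt_iff.2 ⟨?_, ?_⟩⟩
  · exact Idem.glue_lt_one v₁ hb₁ hb₁₁ hb₂₁ h11 h21
  · rw [add_comm]
    exact Idem.glue_lt_one v₂ hb₂ hb₂₂ hb₁₂ h22 h12

end Fermat.Agent.SS

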