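import Fermat.Agent.TOR.KL2.Idx

/-!
# SS-A7 : index of a lattice over `k[X]` = degree of the determinant

Both statements are translations of `TOR/KL2/Deg.lean` and `TOR/KL2/Idx.lean`.
-/

set_option autoImplicit false

namespace Fermat.Agent.SS

open Polynomial

theorem finrank_quotient_vecMul {k : Type*} [Field k] {d : ℕ} (P : Matrix (Fin d) (Fin d) k[X])
    (hP : P.det ≠ 0) :
    Module.Finite k ((Fin d → k[X]) ⧸ LinearMap.range (Matrix.vecMulLinear P)) ∧
      Module.finrank k ((Fin d → k[X]) ⧸ LinearMap.range (Matrix.vecMulLinear P))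
        = P.det.natDegree :=
  Fermat.Agent.TOR.KL2.finrank_quot_range_vecMul P hP

section

variable {k V : Type*} [Field k] [AddCommGroup V] [Module k[X] V] [Module k V]
  [IsScalarTower k k[X] V]

/-- multiplication by `X`. -/
noncomputable def idxT (k V : Type*) [Field k] [AddCommGroup V] [Module k[X] V] [Module k V]
    [IsScalarTower k k[X] V] : Module.End k V := Algebra.lsmul k k V (X : k[X])

theorem idx_aeval_idxT (p : k[X]) (v : V) : aeval (idxT k V) p v = p • v := by
  have h : (aeval (idxT k V) : k[X] →ₐ[k] Module.End k V) = Algebra.lsmul k k V := by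
    apply Polynomial.algHom_ext
    rw [aeval_X]
    rfl
  rw [h]
  rfl

/-- `V ⧸ N` as a quotient of `⊤`. -/
noncomputable def idxEquiv (N : Submodule k[X] V) :
    ((⊤ : Submodule k V) ⧸ (N.restrictScalars k).submoduleOf ⊤) ≃ₗ[k] (V ⧸ N) :=
  (Submodule.Quotient.equiv _ (N.restrictScalars k) Submodule.topEquiv (by
    ext x
    simp only [Submodule.mem_map, Submodule.restrictScalars_mem]
    constructor
    · rintro ⟨y, hy, rfl⟩
      exact hy
    · intro hx
      exact ⟨⟨x, trivial⟩, hx, rfl⟩)).trans (Submodule.Quotient.restrictScalarsEquiv k N)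

end

/-- two lattices `⟨b⟩`, `⟨e⟩` in a torsion free `k[X]`-module `V`, `q e = P b`,
`deg det P = d deg q`: they have the same (finite) codimension in `V`. -/
theorem idx {k V : Type*} [Field k] [AddCommGroup V] [Module k[X] V] [Module k V]
    [IsScalarTower k k[X] V] [NoZeroSMulDivisors k[X] V] {d : ℕ} (b e : Fin d → V)
    (hb : LinearIndependent k[X] b) (q : k[X]) (hq : q ≠ 0) (P : Matrix (Fin d) (Fin d) k[X])
    (hP : ∀ i, q • e i = ∑ j, P i j • b j) (hdet : P.det ≠ 0)
    (hdeg : P.det.natDegree = d * q.natDegree)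
    (hfin : Module.Finite k (V ⧸ Submodule.span k[X] (Set.range b))) :
    Module.Finite k (V ⧸ Submodule.span k[X] (Set.range e)) ∧
      Module.finrank k (V ⧸ Submodule.span k[X] (Set.range e))
        = Module.finrank k (V ⧸ Submodule.span k[X] (Set.range b)) := by
  have hb' : ∀ p : Fin d → k[X], ∑ i, p i • b i = 0 → p = 0 := fun p hp =>
    funext (Fintype.linearIndependent_iff.mp hb p hp)
  have he' : ∀ p : Fin d → k[X], ∑ i, p i • e i = 0 → p = 0 := by
    intro p hp
    have h1 : ∑ j, (Matrix.vecMul p P) j • b j = 0 := by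
      have h2 : q • ∑ i, p i • e i = 0 := by rw [hp, smul_zero]
      rw [Finset.smul_sum] at h2
      rw [← h2]
      simp only [Matrix.vecMul, dotProduct, Finset.sum_smul]
      rw [Finset.sum_comm]
      refine Finset.sum_congr rfl fun i _ => ?_
      rw [smul_comm, hP, Finset.smul_sum]
      refine Finset.sum_congr rfl fun j _ => ?_
      rw [mul_smul]
    exact Matrix.eq_zero_of_vecMul_eq_zero hdet (hb' _ h1)
  have hmem : ∀ (c : Fin d → V) (x : V),
      x ∈ (Submodule.span k[X] (Set.range c)).restrictScalars k ↔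
        ∃ p : Fin d → k[X], x = ∑ i, aeval (idxT k V) (p i) (c i) := by
    intro c x
    rw [Submodule.restrictScalars_mem, Submodule.mem_span_range_iff_exists_fun]
    simp only [idx_aeval_idxT]
    exact ⟨fun ⟨p, hp⟩ => ⟨p, hp.symm⟩, fun ⟨p, hp⟩ => ⟨p, hp.symm⟩⟩
  have hfin' : Module.Finite k ((⊤ : Submodule k V) ⧸
      ((Submodule.span k[X] (Set.range b)).restrictScalars k).submoduleOf ⊤) :=
    Module.Finite.equiv (idxEquiv (Submodule.span k[X] (Set.range b))).symm
  obtain ⟨h1, h2⟩ := Fermat.Agent.TOR.KL2.idx (idxT k V) (⊤ : Submodule k V)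
    ((Submodule.span k[X] (Set.range b)).restrictScalars k)
    ((Submodule.span k[X] (Set.range e)).restrictScalars k) le_top le_top b e
    (fun p hp => hb' p (by simpa only [idx_aeval_idxT] using hp)) (hmem b)
    (fun p hp => he' p (by simpa only [idx_aeval_idxT] using hp)) (hmem e)
    q hq P (fun i => by simpa only [idx_aeval_idxT] using hP i) hdeg hfin'
  refine ⟨Module.Finite.equiv (idxEquiv (Submodule.span k[X] (Set.range e))), ?_⟩
  rw [← (idxEquiv (Submodule.span k[X] (Set.range e))).finrank_eq, h2,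
    (idxEquiv (Submodule.span k[X] (Set.range b))).finrank_eq]

end Fermat.Agent.SS
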