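import Fermat.Agent.SS.Defs
import Fermat.Agent.GAL.KL.NearOne
import Fermat.Agent.TOR.KL2.ONBasis

/-!
# SS-A5 : `exists_near_one2` : claim (A) for the sup norm `NN` of two valuations

Port of `GAL/KL/NearOne.lean` (see its header for the proof).  All matrices have entries `p(t)`,
`p ∈ L[X]`, and are measured with `v₁`; only the elements `e_i, b_i, w, b'_i` of `F` are measured with
`NN`.  The API for `NN` and the orthonormal bases are those of `TOR/KL2` (same definitions).
-/

set_option autoImplicit false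

namespace Fermat.Agent.SS

open Polynomial Fermat.Agent.GAL.KL

variable {L F Γ₀ : Type*} [Field L] [Field F] [Algebra L F] [LinearOrderedCommGroupWithZero Γ₀]
variable {v₁ v₂ : Valuation F Γ₀} {t : F}

namespace NearOne2

open TOR.KL2 (Setup)
open GAL.KL.NearOne

local notation "N₂" => TOR.KL2.NN v₁ v₂

/-- `exists_matrix_of_bases`, normalised (sup norm version). -/
theorem exists_matrix_normalised2 (S : Setup L v₁ v₂ t) {d : ℕ} (β : Fin d → F)
    (hβs : Spans L t β) (b : Fin d → F) (hb : TOR.KL2.ON2 L v₁ v₂ t b) (x : Fin d → F)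
    (hx : ∀ i, TOR.KL2.NN v₁ v₂ (x i) ≤ 1) :
    ∃ (q : L[X]) (P : Matrix (Fin d) (Fin d) L[X]), v₁ (aeval t q) = 1 ∧
      (∀ i, aeval t q * x i = comb L t (P i) b) ∧ ∀ i j, v₁ (aeval t (P i j)) ≤ 1 := by
  have hG := S.G1
  obtain ⟨q₀, P₀, hq₀, hP₀⟩ := exists_matrix_of_bases hG.inj β hβs b (hb.inj S) x
  obtain ⟨a, ha⟩ := hG.exists_const q₀
  have hq₀t : aeval t q₀ ≠ 0 := fun h => hq₀ (hG.inj q₀ h)
  have hva : v₁ (algebraMap L F a) ≠ 0 := by
    rw [← ha]; exact (Valuation.ne_zero_iff v₁).2 hq₀t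
  have hq1 : v₁ (aeval t (C a⁻¹ * q₀)) = 1 := by
    rw [map_mul, aeval_C, map_mul, map_inv₀, map_inv₀, ha]
    exact inv_mul_cancel₀ hva
  have hP : ∀ i, aeval t (C a⁻¹ * q₀) * x i = comb L t (fun j => C a⁻¹ * P₀ i j) b := by
    intro i
    rw [comb_mul_left', map_mul, mul_assoc, hP₀ i]
  refine ⟨C a⁻¹ * q₀, Matrix.of fun i j => C a⁻¹ * P₀ i j, hq1, hP, fun i j => ?_⟩
  refine (hb (fun j => C a⁻¹ * P₀ i j) 1).1 ?_ j
  rw [← hP i, S.NN_aeval_mul, hq1, one_mul]
  exact hx i

/-- the theorem, in the language of `TOR/KL2`. -/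
theorem main [IsAlgClosed L] (S : Setup L v₁ v₂ t) {d : ℕ} (β : Fin d → F)
    (hβ : TOR.KL2.ON2 L v₁ v₂ t β) (hβs : Spans L t β) (b : Fin d → F)
    (hb : IsBasis L t b (BB L t))
    {n : ℕ} (hn : 0 < n) {w : F} (hw : TOR.KL2.NN v₁ v₂ (w - 1) < 1)
    (hroot : ∀ x b : F, IsInt L t b → TOR.KL2.NN v₁ v₂ (x ^ n - b) < 1 →
      TOR.KL2.NN v₁ v₂ x ≤ 1 → ∃ b' : F, IsInt L t b' ∧ TOR.KL2.NN v₁ v₂ (x - b') < 1)
    (hU : ∀ c : L, LocPow L t n w c) :
    ∃ G : F, G ∈ II L t n w ∧ TOR.KL2.NN v₁ v₂ (G - 1) < 1 := by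
  classical
  have hG := S.G1
  have hone : ∀ v : Valuation F Γ₀, v (w - 1) < 1 → v w = 1 := by
    intro v hw
    have h1 : v (w - 1) < v (1 : F) := by rwa [map_one]
    have := Valuation.map_add_eq_of_lt_left v h1
    rw [add_sub_cancel, map_one] at this
    exact this
  have hvw : v₁ w = 1 := hone v₁ (TOR.KL2.NN_lt_iff.1 hw).1
  have hvw₂ : v₂ w = 1 := hone v₂ (TOR.KL2.NN_lt_iff.1 hw).2
  have hNw : TOR.KL2.NN v₁ v₂ w ≤ 1 := TOR.KL2.NN_le_iff.2 ⟨hvw.le, hvw₂.le⟩
  have hw0 : w ≠ 0 := fun h => by rw [h, map_zero] at hvw; exact zero_ne_one hvw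
  -- orthonormal bases
  obtain ⟨b₁, hb₁, hb₁ON⟩ := TOR.KL2.exists_ON2_basis S β hβ hβs _ b hb
  obtain ⟨a, ha⟩ := exists_basis_II hG.inj β hβs b₁ hb₁ hn hw0
  obtain ⟨e, he, heON⟩ := TOR.KL2.exists_ON2_basis S β hβ hβs _ a ha
  have hve : ∀ i, TOR.KL2.NN v₁ v₂ (e i) = 1 := fun i => heON.NN_eq_one i
  have hvb : ∀ i, TOR.KL2.NN v₁ v₂ (b₁ i) = 1 := fun i => hb₁ON.NN_eq_one i
  have hemem : ∀ i, e i ∈ II L t n w := fun i =>
    (he.2 (e i)).2 ⟨Pi.single i 1, by rw [comb_single']; simp⟩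
  -- a product of an element of norm `< 1` and an element of norm `≤ 1`
  have hmul_lt : ∀ x y : F, TOR.KL2.NN v₁ v₂ x < 1 → TOR.KL2.NN v₁ v₂ y ≤ 1 →
      TOR.KL2.NN v₁ v₂ (x * y) < 1 := by
    intro x y hx hy
    exact (TOR.KL2.NN_mul_le x y).trans_lt (mul_lt_one_of_lt_of_le hx hy)
  have hpow_le : ∀ (x : F) (m : ℕ), TOR.KL2.NN v₁ v₂ x ≤ 1 → TOR.KL2.NN v₁ v₂ (x ^ m) ≤ 1 := by
    intro x m hx
    rw [TOR.KL2.NN_le_iff] at hx ⊢
    rw [map_pow, map_pow]
    exact ⟨pow_le_one' hx.1 m, pow_le_one' hx.2 m⟩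
  -- the matrices
  obtain ⟨q, P, hq1, hP, hPle⟩ :=
    exists_matrix_normalised2 S β hβs b₁ hb₁ON e (fun i => (hve i).le)
  obtain ⟨q', P', hq'1, hP', hP'le⟩ :=
    exists_matrix_normalised2 S β hβs e heON b₁ (fun i => (hvb i).le)
  obtain ⟨r, W, hr1, hW, hWle⟩ :=
    exists_matrix_normalised2 S β hβs b₁ hb₁ON (fun i => w * b₁ i)
      (fun i => (TOR.KL2.NN_mul_le _ _).trans (mul_le_one' hNw (hvb i).le))
  have hq0 : q ≠ 0 := by
    rintro rfl
    rw [map_zero, map_zero] at hq1
    exact zero_ne_one hq1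
  have hr0 : r ≠ 0 := by
    rintro rfl
    rw [map_zero, map_zero] at hr1
    exact zero_ne_one hr1
  -- approximation of `e i` by elements of `B`
  have hroot' : ∀ i, ∃ b' : F, IsInt L t b' ∧ TOR.KL2.NN v₁ v₂ (e i - b') < 1 := by
    intro i
    refine hroot (e i) (e i ^ n * w) (hemem i) ?_ (hve i).le
    have h1 : e i ^ n - e i ^ n * w = - ((w - 1) * e i ^ n) := by ring
    rw [h1, TOR.KL2.NN_neg]
    exact hmul_lt _ _ hw (hpow_le _ _ (hve i).le)
  choose b' hb'int hb'lt using hroot'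
  have hb'le : ∀ i, TOR.KL2.NN v₁ v₂ (b' i) ≤ 1 := by
    intro i
    have h1 : b' i = e i - (e i - b' i) := by ring
    rw [h1]
    exact TOR.KL2.NN_sub_le' (hve i).le (hb'lt i).le
  have hM₀ex : ∀ i, ∃ p : Fin d → L[X], b' i = comb L t p b₁ := fun i =>
    (hb₁.2 (b' i)).1 (hb'int i)
  choose M₀ hM₀ using hM₀ex
  let M : Matrix (Fin d) (Fin d) L[X] := Matrix.of M₀
  have hMle : ∀ i j, v₁ (aeval t (M i j)) ≤ 1 := by
    intro i j
    refine (hb₁ON (M₀ i) 1).1 ?_ j
    rw [← hM₀ i]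
    exact hb'le i
  -- congruences of the entries
  have hPM : ∀ i j, v₁ (aeval t (P i j - q * M i j)) < 1 := by
    intro i j
    refine (hb₁ON.lt_iff (fun j => P i j - q * M i j) 1 one_ne_zero).1 ?_ j
    rw [NearOne.comb_sub', comb_mul_left']
    have h1 : comb L t (fun j => P i j) b₁ = aeval t q * e i := (hP i).symm
    have h2 : comb L t (fun j => M i j) b₁ = b' i := (hM₀ i).symm
    rw [h1, h2, ← mul_sub, S.NN_aeval_mul, hq1, one_mul]
    exact hb'lt i
  have hWr : ∀ i j, v₁ (aeval t (W i j - (Pi.single i r : Fin d → L[X]) j)) < 1 := by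
    intro i j
    refine (hb₁ON.lt_iff (fun j => W i j - (Pi.single i r : Fin d → L[X]) j) 1 one_ne_zero).1 ?_ j
    rw [NearOne.comb_sub']
    have h1 : comb L t (fun j => W i j) b₁ = aeval t r * (w * b₁ i) := (hW i).symm
    have h2 : comb L t (fun j => (Pi.single i r : Fin d → L[X]) j) b₁ = aeval t r * b₁ i :=
      comb_single' i r b₁
    rw [h1, h2]
    have h3 : aeval t r * (w * b₁ i) - aeval t r * b₁ i = aeval t r * ((w - 1) * b₁ i) := by ring
    rw [h3, S.NN_aeval_mul, hr1, one_mul]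
    exact hmul_lt _ _ hw (hvb i).le
  -- evaluation of determinants
  have hdet : ∀ N : Matrix (Fin d) (Fin d) L[X], aeval t N.det = (N.map (aeval t)).det := by
    intro N
    rw [AlgHom.map_det, AlgHom.mapMatrix_apply]
  have hdetle : ∀ N : Matrix (Fin d) (Fin d) L[X], (∀ i j, v₁ (aeval t (N i j)) ≤ 1) →
      v₁ (aeval t N.det) ≤ 1 := by
    intro N hN
    rw [hdet]
    exact v_det_le_one _ fun i j => by rw [Matrix.map_apply]; exact hN i j
  -- (a) `det P` has Gauss norm one
  have hPP' : P * P' = (q * q') • (1 : Matrix (Fin d) (Fin d) L[X]) := by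
    have h1 : ∀ i, Matrix.vecMul (P i) P' = Pi.single i (q * q') := by
      intro i
      have h2 : comb L t (fun j => Matrix.vecMul (P i) P' j - (Pi.single i (q * q') : Fin d → L[X]) j) e
          = 0 := by
        rw [NearOne.comb_sub']
        have h3 : comb L t (fun j => Matrix.vecMul (P i) P' j) e
            = comb L t (P i) (fun j => comb L t (P' j) e) := (comb_comb (P i) P' e).symm
        have h4 : comb L t (fun j => (Pi.single i (q * q') : Fin d → L[X]) j) e
            = aeval t (q * q') * e i := comb_single' i (q * q') e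
        rw [h3, h4]
        have h5 : (fun j => comb L t (P' j) e) = fun j => aeval t q' * b₁ j := by
          funext j; exact (hP' j).symm
        rw [h5, comb_mul_right', ← hP i, map_mul]
        ring
      have h6 := he.1 _ h2
      funext j
      have h7 := congrFun h6 j
      exact sub_eq_zero.1 h7
    ext i k : 2
    have h8 := congrFun (h1 i) k
    rw [Matrix.smul_apply, Matrix.one_apply, smul_eq_mul]
    rw [Pi.single_apply] at h8
    have h9 : (P * P') i k = Matrix.vecMul (P i) P' k := by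
      simp [Matrix.mul_apply, Matrix.vecMul, dotProduct]
    rw [h9, h8]
    by_cases hik : i = k
    · subst hik; simp
    · rw [if_neg hik, if_neg (fun h => hik h.symm), mul_zero]
  have hvP : v₁ (aeval t P.det) = 1 := by
    have h1 := congrArg Matrix.det hPP'
    rw [Matrix.det_mul, Matrix.det_smul, Matrix.det_one, mul_one, Fintype.card_fin] at h1
    have h2 := congrArg (fun p => v₁ (aeval t p)) h1
    simp only [map_mul, map_pow, hq1, hq'1, one_pow, mul_one] at h2
    exact eq_one_of_mul_eq_one h2 (hdetle P hPle) (hdetle P' hP'le)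
  -- (b) `det W ≡ r ^ d`
  have hWdet : v₁ (aeval t W.det - aeval t r ^ d) < 1 := by
    have h1 : (aeval t r • (1 : Matrix (Fin d) (Fin d) F)).det = aeval t r ^ d := by
      rw [Matrix.det_smul, Matrix.det_one, mul_one, Fintype.card_fin]
    rw [hdet, ← h1]
    refine congr_det _ _ (fun i j => by rw [Matrix.map_apply]; exact hWle i j) ?_ ?_
    · intro i j
      rw [Matrix.smul_apply, Matrix.one_apply, smul_eq_mul]
      split_ifs
      · rw [mul_one, hr1]
      · simp
    · intro i j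
      have h2 := hWr i j
      rw [Matrix.map_apply, Matrix.smul_apply, Matrix.one_apply, smul_eq_mul]
      rw [map_sub, Pi.single_apply] at h2
      by_cases hij : i = j
      · subst hij
        simpa using h2
      · rw [if_neg hij, mul_zero]
        rw [if_neg (fun h => hij h.symm), map_zero] at h2
        exact h2
  -- (c) `det P ≡ q ^ d * det M`
  have hPdet : v₁ (aeval t P.det - aeval t q ^ d * aeval t M.det) < 1 := by
    have h1 : (aeval t q • M.map (aeval t)).det = aeval t q ^ d * aeval t M.det := by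
      rw [Matrix.det_smul, Fintype.card_fin, hdet M]
    rw [hdet P, ← h1]
    refine congr_det _ _ (fun i j => by rw [Matrix.map_apply]; exact hPle i j) ?_ ?_
    · intro i j
      rw [Matrix.smul_apply, Matrix.map_apply, smul_eq_mul, map_mul, hq1, one_mul]
      exact hMle i j
    · intro i j
      have h2 := hPM i j
      rw [map_sub, map_mul] at h2
      rw [Matrix.map_apply, Matrix.smul_apply, Matrix.map_apply, smul_eq_mul]
      exact h2
  -- (d) the index is constant
  obtain ⟨c₀, -, hc₀⟩ := index_const hG.inj β hβs b₁ hb₁ hn hw0 e he hU q P hq0 hP r W hr0 hW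
  have hev : aeval t P.det ^ n * aeval t W.det
      = algebraMap L F c₀ * (aeval t q ^ (d * n) * aeval t r ^ d) := by
    have h1 := congrArg (aeval t) hc₀
    simpa only [map_mul, map_pow, aeval_C] using h1
  have hvW : v₁ (aeval t W.det) = 1 := by
    have h1 : v₁ (aeval t W.det - aeval t r ^ d) < v₁ (aeval t r ^ d) := by
      rw [map_pow, hr1, one_pow]; exact hWdet
    have h2 := Valuation.map_add_eq_of_lt_left v₁ h1
    rw [add_sub_cancel, map_pow, hr1, one_pow] at h2
    exact h2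
  have hvc : v₁ (algebraMap L F c₀) = 1 := by
    have h1 := congrArg v₁ hev
    simp only [map_mul, map_pow, hvP, hvW, hq1, hr1, one_pow, mul_one] at h1
    exact h1.symm
  have hvD : v₁ (aeval t M.det) ≤ 1 := hdetle M hMle
  have hDn : v₁ (aeval t M.det ^ n - algebraMap L F c₀) < 1 := by
    have h1 : v₁ ((aeval t q ^ d * aeval t M.det) ^ n * aeval t r ^ d
        - aeval t P.det ^ n * aeval t W.det) < 1 := by
      have hle : v₁ (aeval t q ^ d * aeval t M.det) ≤ 1 := by
        rw [map_mul, map_pow, hq1, one_pow, one_mul]; exact hvD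
      refine congr_mul (congr_pow ?_ hle hvP.le n hn) ?_ ?_ hvW.le
      · rw [Valuation.map_sub_swap]; exact hPdet
      · rw [Valuation.map_sub_swap]; exact hWdet
      · rw [map_pow]; exact pow_le_one' hle n
    have h2 : (aeval t q ^ d * aeval t M.det) ^ n * aeval t r ^ d
        - aeval t P.det ^ n * aeval t W.det
        = (aeval t q ^ (d * n) * aeval t r ^ d) * (aeval t M.det ^ n - algebraMap L F c₀) := by
      rw [hev, pow_mul]; ring
    rw [h2, map_mul, map_mul, map_pow, map_pow, hq1, hr1, one_pow, one_pow, one_mul, one_mul] at h1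
    exact h1
  -- the degree argument
  obtain ⟨hu1, hui⟩ := coeff_of_pow_congr_const (v₁.comap (algebraMap L F)) M.det c₀ hn
    (fun i => (hG M.det 1).1 hvD i) hvc
    (fun i => (hG.lt_iff (M.det ^ n - C c₀) 1 one_ne_zero).1
      (by rw [map_sub, map_pow, aeval_C]; exact hDn) i)
  rw [Valuation.comap_apply] at hu1
  set u : L := M.det.coeff 0 with hu
  have hDu : v₁ (aeval t M.det - algebraMap L F u) < 1 := by
    have h1 : aeval t M.det - algebraMap L F u = aeval t (M.det - C u) := by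
      rw [map_sub, aeval_C]
    rw [h1]
    refine (hG.lt_iff _ 1 one_ne_zero).2 fun i => ?_
    rcases Nat.eq_zero_or_pos i with rfl | hi
    · rw [coeff_sub, coeff_C_zero, hu, sub_self, map_zero, map_zero]
      exact zero_lt_one
    · rw [coeff_sub, coeff_C, if_neg hi.ne', sub_zero]
      exact hui i hi
  have hu0 : algebraMap L F u ≠ 0 := by
    intro h
    rw [h, map_zero] at hu1
    exact zero_ne_one hu1
  have hvu' : v₁ (aeval t (C u⁻¹ : L[X])) = 1 := by
    rw [aeval_C, map_inv₀, map_inv₀, hu1, inv_one]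
  -- `1` in the basis `b₁`
  obtain ⟨g, hg⟩ := (hb₁.2 1).1 (IsInt.one : IsInt L t (1 : F))
  have hgle : ∀ j, v₁ (aeval t (g j)) ≤ 1 := by
    refine (hb₁ON g 1).1 ?_
    rw [← hg, TOR.KL2.NN_one]
  -- the element `G`
  let γ : Fin d → L[X] := fun j => C u⁻¹ * Matrix.vecMul g M.adjugate j
  have hγle : ∀ j, v₁ (aeval t (γ j)) ≤ 1 := by
    intro j
    have h1 : aeval t (γ j) = aeval t (C u⁻¹ : L[X]) *
        ∑ i, aeval t (g i) * (M.map (aeval t)).adjugate i j := by
      have h2 : ∀ i, (M.map (aeval t)).adjugate i j = aeval t (M.adjugate i j) := by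
        intro i
        have h3 := AlgHom.map_adjugate (aeval t : L[X] →ₐ[L] F) M
        rw [AlgHom.mapMatrix_apply, AlgHom.mapMatrix_apply] at h3
        rw [← h3, Matrix.map_apply]
      simp only [γ, Matrix.vecMul, dotProduct, map_mul, map_sum, h2]
    rw [h1, map_mul, hvu', one_mul]
    refine Valuation.map_sum_le v₁ fun i _ => ?_
    rw [map_mul]
    exact mul_le_one' (hgle i)
      (v_adjugate_le_one _ (fun k l => by rw [Matrix.map_apply]; exact hMle k l) i j)
  refine ⟨comb L t γ e, (he.2 _).2 ⟨γ, rfl⟩, ?_⟩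
  have hsplit : comb L t γ e - 1 = (comb L t γ e - comb L t γ b') + (comb L t γ b' - 1) := by ring
  rw [hsplit]
  refine TOR.KL2.NN_add_lt ?_ ?_
  · have h1 : comb L t γ e - comb L t γ b' = ∑ j, aeval t (γ j) * (e j - b' j) := by
      simp only [comb, mul_sub, Finset.sum_sub_distrib]
    rw [h1]
    refine TOR.KL2.NN_sum_lt _ _ one_ne_zero fun j _ => ?_
    rw [S.NN_aeval_mul]
    exact (mul_le_of_le_one_left' (hγle j)).trans_lt (hb'lt j)
  · have h1 : comb L t γ b' = comb L t (Matrix.vecMul γ M) b₁ := by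
      rw [← comb_comb]
      congr 1
      funext i
      exact hM₀ i
    have h2 : Matrix.vecMul γ M = fun j => (C u⁻¹ * M.det) * g j := by
      have h3 : γ = (C u⁻¹ : L[X]) • Matrix.vecMul g M.adjugate := by
        funext j; simp [γ]
      rw [h3, Matrix.smul_vecMul, Matrix.vecMul_vecMul, Matrix.adjugate_mul, Matrix.vecMul_smul,
        Matrix.vecMul_one]
      funext j
      simp [mul_assoc]
    rw [h1, h2, comb_mul_left', ← hg, mul_one]
    have h5 : aeval t (C u⁻¹ * M.det) - 1 = aeval t (C u⁻¹ * M.det - 1) := by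
      rw [map_sub, map_one]
    have h6 : v₁ (aeval t (C u⁻¹ * M.det - 1)) < 1 := by
      rw [← h5, map_mul, aeval_C, map_inv₀]
      have h4 : (algebraMap L F u)⁻¹ * aeval t M.det - 1
          = (algebraMap L F u)⁻¹ * (aeval t M.det - algebraMap L F u) := by
        field_simp
      rw [h4, map_mul, map_inv₀, hu1, inv_one, one_mul]
      exact hDu
    rw [h5]
    exact TOR.KL2.NN_lt_iff.2 ⟨h6, by rw [← S.eq_aeval]; exact h6⟩

end NearOne2

theorem exists_near_one2 [IsAlgClosed L] (hG : Gauss2 L v₁ v₂ t) {d : ℕ} (β : Fin d → F)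
    (hβ : ON2 L v₁ v₂ t β) (hβs : Spans L t β) (b : Fin d → F) (hb : IsBasis L t b (BB L t))
    {n : ℕ} (hn : 0 < n) {w : F} (hw : NN v₁ v₂ (w - 1) < 1) (hroot : RootClosed2 L v₁ v₂ t n)
    (hU : ∀ c : L, LocPow L t n w c) :
    ∃ G : F, G ∈ II L t n w ∧ NN v₁ v₂ (G - 1) < 1 :=
  NearOne2.main ⟨hG.g₁, hG.g₂, hG.same⟩ β hβ hβs b hb hn hw hroot hU

end Fermat.Agent.SS
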