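import Fermat.Agent.SS.Defs
import Fermat.Agent.TOR.KL2.Newton

/-!
# SS-A4 : Newton iteration for two valuations at once

The statement is the same as `TOR.KL2.newton2` (helper99); the two sup norms `SS.NN` and
`TOR.KL2.NN` are definitionally equal.
-/

set_option autoImplicit false

namespace Fermat.Agent.SS

open Polynomial Fermat.Agent.GAL.KL

variable {L F Γ₀ : Type*} [Field L] [Field F] [Algebra L F] [LinearOrderedCommGroupWithZero Γ₀]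
variable {v₁ v₂ : Valuation F Γ₀} {t : F}

omit [Field L] [Algebra L F] in
theorem Newton2_NN_eq (x : F) : NN v₁ v₂ x = TOR.KL2.NN v₁ v₂ x := rfl

theorem newton2 (hA₁ : Arch v₁) (hA₂ : Arch v₂) {n : ℕ} (hvn₁ : v₁ (n : F) = 1)
    (hvn₂ : v₂ (n : F) = 1) {w G : F} (hG : G ∈ II L t n w)
    (hG1 : NN v₁ v₂ (G - 1) < 1) (hw : NN v₁ v₂ (w - 1) < 1) (γ : Γ₀) (hγ : γ ≠ 0) :
    ∃ G' : F, G' ∈ II L t n w ∧ NN v₁ v₂ (G' ^ n * w - 1) < γ ∧ NN v₁ v₂ (G' - 1) < 1 :=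
  TOR.KL2.newton2 hA₁ hA₂ hvn₁ hvn₂ hG hG1 hw γ hγ

omit [Field L] [Algebra L F] in
/-- comparison of two approximate roots (same remark). -/
theorem Newton2_close2 {n : ℕ} (hvn₁ : v₁ (n : F) = 1) (hvn₂ : v₂ (n : F) = 1) {w a b : F}
    (hw : NN v₁ v₂ (w - 1) < 1) (ha : NN v₁ v₂ (a - 1) < 1) (hb : NN v₁ v₂ (b - 1) < 1) (γ : Γ₀)
    (ha' : NN v₁ v₂ (a ^ n * w - 1) < γ) (hb' : NN v₁ v₂ (b ^ n * w - 1) < γ) :
    NN v₁ v₂ (a - b) < γ :=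
  TOR.KL2.close2 hvn₁ hvn₂ hw ha hb γ ha' hb'

end Fermat.Agent.SS
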