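import Mathlib

/-!
# SS-A8 : the counting lemma at the double points (pure linear algebra)
-/

set_option autoImplicit false

namespace Fermat.Agent.SS

/-- abstract form of the counting lemma: `Ψ = (Ψ₁, Ψ₂) : V → Q × Q` onto, `M ≤ V` of codimension
`≤ dim Q`, and `Ψ₂ m = 0 → Ψ₁ m = 0` on `M`.  Then `ker Ψ ≤ M` and `Ψ₂ (M) = Q`. -/
theorem Node_abstract {k V Q : Type*} [Field k] [AddCommGroup V] [Module k V] [AddCommGroup Q]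
    [Module k Q] [Module.Finite k Q] (Ψ₁ Ψ₂ : V →ₗ[k] Q)
    (hsurj : Function.Surjective (Ψ₁.prod Ψ₂)) (M : Submodule k V)
    [Module.Finite k (V ⧸ M)] (hdim : Module.finrank k (V ⧸ M) ≤ Module.finrank k Q)
    (hA : ∀ m ∈ M, Ψ₂ m = 0 → Ψ₁ m = 0) :
    (∀ v, Ψ₁ v = 0 → Ψ₂ v = 0 → v ∈ M) ∧ ∀ z : Q, ∃ m ∈ M, Ψ₂ m = z := by
  classical
  set Ψ : V →ₗ[k] Q × Q := Ψ₁.prod Ψ₂ with hΨ
  set N : Submodule k (Q × Q) := M.map Ψ with hN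
  set r := Module.finrank k Q with hr
  -- `snd` is injective on `N`
  have hinj : Function.Injective ((LinearMap.snd k Q Q).comp N.subtype) := by
    rw [← LinearMap.ker_eq_bot, LinearMap.ker_eq_bot']
    rintro ⟨x, hx⟩ h0
    obtain ⟨m, hm, rfl⟩ := hx
    have h2 : Ψ₂ m = 0 := h0
    have h1 : Ψ₁ m = 0 := hA m hm h2
    apply Subtype.ext
    show Ψ m = 0
    exact Prod.ext h1 h2
  have hNle : Module.finrank k N ≤ r := LinearMap.finrank_le_finrank_of_injective hinj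
  -- the quotient
  have hq : Module.finrank k ((Q × Q) ⧸ N) + Module.finrank k N = r + r := by
    rw [Submodule.finrank_quotient_add_finrank, Module.finrank_prod]
  -- the induced surjection
  have hle : M ≤ N.comap Ψ := Submodule.le_comap_map Ψ M
  set Φ : (V ⧸ M) →ₗ[k] ((Q × Q) ⧸ N) := Submodule.mapQ M N Ψ hle with hΦ
  have hΦs : Function.Surjective Φ := by
    intro z
    obtain ⟨z, rfl⟩ := Submodule.mkQ_surjective N z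
    obtain ⟨v, rfl⟩ := hsurj z
    exact ⟨Submodule.mkQ M v, by simp [hΦ]⟩
  have hle2 : Module.finrank k ((Q × Q) ⧸ N) ≤ Module.finrank k (V ⧸ M) :=
    LinearMap.finrank_le_finrank_of_surjective hΦs
  have hNeq : Module.finrank k N = r := by omega
  have hQeq : Module.finrank k (V ⧸ M) = Module.finrank k ((Q × Q) ⧸ N) := by omega
  have hΦi : Function.Injective Φ :=
    (LinearMap.injective_iff_surjective_of_finrank_eq_finrank hQeq).2 hΦs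
  refine ⟨fun v h1 h2 => ?_, ?_⟩
  · have h0 : Φ (Submodule.mkQ M v) = 0 := by
      have : Ψ v = 0 := Prod.ext h1 h2
      simp [hΦ, this]
    have h3 := hΦi (h0.trans (map_zero Φ).symm)
    simpa using h3
  · have hs : Function.Surjective ((LinearMap.snd k Q Q).comp N.subtype) :=
      (LinearMap.injective_iff_surjective_of_finrank_eq_finrank hNeq).1 hinj
    intro z
    obtain ⟨⟨x, hx⟩, hz⟩ := hs z
    obtain ⟨m, hm, rfl⟩ := hx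
    exact ⟨m, hm, hz⟩

/-- `Ab ⊆ S₁ × S₂` a subalgebra (coordinate ring of the reduced chart), `At = pr₁ Ab × pr₂ Ab` its
"normalisation", `M ⊆ At` a subspace of the same codimension as `Ab`, such that
`m₂ ∈ 𝔞₂ → m₁ ∈ 𝔞₁` on `M` (`𝔞₁ = {x | (x,0) ∈ Ab}`, `𝔞₂ = {y | (0,y) ∈ Ab}`).
Then `𝔞₁ × 𝔞₂ ⊆ M` and `M → pr₂ Ab / 𝔞₂` is onto.
PROOF. `At/Ab ≅ pr₂ Ab/𝔞₂ ≅ pr₁ Ab/𝔞₁` (Goursat), of dimension `r`; `At/(𝔞₁×𝔞₂)` has dimension `2r`;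
`M/(M ∩ 𝔞₁×𝔞₂) ↪ pr₂ Ab/𝔞₂`; so `dim At/(M + 𝔞₁×𝔞₂) ≥ r = dim At/M`. -/
theorem nodeLemma {k S₁ S₂ : Type*} [Field k] [CommRing S₁] [CommRing S₂] [Algebra k S₁]
    [Algebra k S₂] (Ab : Subalgebra k (S₁ × S₂)) (At M : Submodule k (S₁ × S₂))
    (hAt : ∀ x : S₁ × S₂, x ∈ At ↔ (∃ y, (x.1, y) ∈ Ab) ∧ ∃ y, (y, x.2) ∈ Ab)
    (hM : M ≤ At)
    (hA : ∀ m ∈ M, ((0 : S₁), m.2) ∈ Ab → (m.1, (0 : S₂)) ∈ Ab)
    (hfin : Module.Finite k (At ⧸ (Subalgebra.toSubmodule Ab).comap At.subtype))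
    (hfin' : Module.Finite k (At ⧸ M.comap At.subtype))
    (hdim : Module.finrank k (At ⧸ M.comap At.subtype)
      ≤ Module.finrank k (At ⧸ (Subalgebra.toSubmodule Ab).comap At.subtype)) :
    (∀ x y, (x, (0 : S₂)) ∈ Ab → ((0 : S₁), y) ∈ Ab → (x, y) ∈ M) ∧
      ∃ m ∈ M, ((0 : S₁), m.2 - 1) ∈ Ab := by
  classical
  set B' : Submodule k At := (Subalgebra.toSubmodule Ab).comap At.subtype with hB'
  have hAbAt : ∀ x, x ∈ Ab → x ∈ At := fun x hx => (hAt x).2 ⟨⟨x.2, hx⟩, ⟨x.1, hx⟩⟩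
  have h1At : ∀ x : S₁ × S₂, x ∈ At → (x.1, (0 : S₂)) ∈ At := fun x hx =>
    (hAt _).2 ⟨((hAt x).1 hx).1, ⟨0, Ab.zero_mem⟩⟩
  have h2At : ∀ x : S₁ × S₂, x ∈ At → ((0 : S₁), x.2) ∈ At := fun x hx =>
    (hAt _).2 ⟨⟨0, Ab.zero_mem⟩, ((hAt x).1 hx).2⟩
  -- the two projections
  let p₁ : At →ₗ[k] At :=
    LinearMap.codRestrict At ((LinearMap.inl k S₁ S₂).comp ((LinearMap.fst k S₁ S₂).comp At.subtype))
      (fun x => h1At x.1 x.2)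
  let p₂ : At →ₗ[k] At :=
    LinearMap.codRestrict At ((LinearMap.inr k S₁ S₂).comp ((LinearMap.snd k S₁ S₂).comp At.subtype))
      (fun x => h2At x.1 x.2)
  have hp₁ : ∀ x : At, (p₁ x : S₁ × S₂) = (x.1.1, 0) := fun x => rfl
  have hp₂ : ∀ x : At, (p₂ x : S₁ × S₂) = (0, x.1.2) := fun x => rfl
  let Ψ₁ : At →ₗ[k] (At ⧸ B') := B'.mkQ.comp p₁
  let Ψ₂ : At →ₗ[k] (At ⧸ B') := B'.mkQ.comp p₂
  have hΨ₁ : ∀ x : At, Ψ₁ x = 0 ↔ (x.1.1, (0 : S₂)) ∈ Ab := by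
    intro x
    show B'.mkQ (p₁ x) = 0 ↔ _
    rw [Submodule.mkQ_apply, Submodule.Quotient.mk_eq_zero]
    rfl
  have hΨ₂ : ∀ x : At, Ψ₂ x = 0 ↔ ((0 : S₁), x.1.2) ∈ Ab := by
    intro x
    show B'.mkQ (p₂ x) = 0 ↔ _
    rw [Submodule.mkQ_apply, Submodule.Quotient.mk_eq_zero]
    rfl
  -- each `Ψ_i` is onto
  have hs₁ : ∀ z : At ⧸ B', ∃ x : At, Ψ₁ x = z := by
    intro z
    obtain ⟨x, rfl⟩ := Submodule.mkQ_surjective B' z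
    obtain ⟨y, hy⟩ := ((hAt x.1).1 x.2).2
    -- `(y, x.2) ∈ Ab`
    refine ⟨x - ⟨(y, x.1.2), hAbAt _ hy⟩, ?_⟩
    show B'.mkQ (p₁ _) = B'.mkQ x
    rw [Submodule.mkQ_apply, Submodule.mkQ_apply, Submodule.Quotient.eq]
    show ((p₁ (x - ⟨(y, x.1.2), hAbAt _ hy⟩) - x : At) : S₁ × S₂) ∈ Ab
    have : ((p₁ (x - ⟨(y, x.1.2), hAbAt _ hy⟩) - x : At) : S₁ × S₂) = -(y, x.1.2) := by
      rw [Submodule.coe_sub, hp₁]
      ext <;> simp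
    rw [this]
    exact Ab.neg_mem hy
  have hs₂ : ∀ z : At ⧸ B', ∃ x : At, Ψ₂ x = z := by
    intro z
    obtain ⟨x, rfl⟩ := Submodule.mkQ_surjective B' z
    obtain ⟨y, hy⟩ := ((hAt x.1).1 x.2).1
    refine ⟨x - ⟨(x.1.1, y), hAbAt _ hy⟩, ?_⟩
    show B'.mkQ (p₂ _) = B'.mkQ x
    rw [Submodule.mkQ_apply, Submodule.mkQ_apply, Submodule.Quotient.eq]
    show ((p₂ (x - ⟨(x.1.1, y), hAbAt _ hy⟩) - x : At) : S₁ × S₂) ∈ Ab
    have : ((p₂ (x - ⟨(x.1.1, y), hAbAt _ hy⟩) - x : At) : S₁ × S₂) = -(x.1.1, y) := by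
      rw [Submodule.coe_sub, hp₂]
      ext <;> simp
    rw [this]
    exact Ab.neg_mem hy
  have hsurj : Function.Surjective (Ψ₁.prod Ψ₂) := by
    rintro ⟨α, β⟩
    obtain ⟨a, rfl⟩ := hs₁ α
    obtain ⟨b, rfl⟩ := hs₂ β
    have hab : (a.1.1, b.1.2) ∈ At := (hAt _).2 ⟨((hAt a.1).1 a.2).1, ((hAt b.1).1 b.2).2⟩
    refine ⟨⟨(a.1.1, b.1.2), hab⟩, ?_⟩
    rfl
  obtain ⟨hc, hon⟩ := Node_abstract Ψ₁ Ψ₂ hsurj (M.comap At.subtype) hdim (by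
    intro m hm h2
    exact (hΨ₁ m).2 (hA m.1 hm ((hΨ₂ m).1 h2)))
  refine ⟨fun x y hx hy => ?_, ?_⟩
  · have hxy : (x, y) ∈ Ab := by
      have := Ab.add_mem hx hy
      simpa using this
    exact hc ⟨(x, y), hAbAt _ hxy⟩ ((hΨ₁ _).2 hx) ((hΨ₂ _).2 hy)
  · obtain ⟨m, hm, hm1⟩ := hon (Ψ₂ ⟨1, hAbAt _ Ab.one_mem⟩)
    refine ⟨m.1, hm, ?_⟩
    have h0 : Ψ₂ (m - ⟨1, hAbAt _ Ab.one_mem⟩) = 0 := by rw [map_sub, hm1, sub_self]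
    exact (hΨ₂ _).1 h0

end Fermat.Agent.SS
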