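import Fermat.Agent.SS.Defs

/-!
# SS-A1 : API of the sup norm `NN = max (v₁, v₂)`, `Gauss2`, `ON2`
(port of `GAL/KL/BasicGauss.lean`)
-/

set_option autoImplicit false

namespace Fermat.Agent.SS

open Polynomial Fermat.Agent.GAL.KL

variable {L F Γ₀ : Type*} [Field L] [Field F] [Algebra L F] [LinearOrderedCommGroupWithZero Γ₀]
variable {v₁ v₂ : Valuation F Γ₀} {t : F}

/-! ### the sup norm -/

theorem NN_le_iff {x : F} {γ : Γ₀} : NN v₁ v₂ x ≤ γ ↔ v₁ x ≤ γ ∧ v₂ x ≤ γ := max_le_iff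
theorem NN_lt_iff {x : F} {γ : Γ₀} : NN v₁ v₂ x < γ ↔ v₁ x < γ ∧ v₂ x < γ := max_lt_iff
theorem NN_zero : NN v₁ v₂ (0 : F) = 0 := by simp [NN]
theorem NN_one : NN v₁ v₂ (1 : F) = 1 := by simp [NN]
theorem NN_neg (x : F) : NN v₁ v₂ (-x) = NN v₁ v₂ x := by simp [NN, Valuation.map_neg]

theorem le_NN_left (x : F) : v₁ x ≤ NN v₁ v₂ x := le_max_left _ _
theorem le_NN_right (x : F) : v₂ x ≤ NN v₁ v₂ x := le_max_right _ _

theorem NN_eq_zero_iff {x : F} : NN v₁ v₂ x = 0 ↔ x = 0 := by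
  constructor
  · intro h
    have h1 : v₁ x ≤ 0 := h ▸ le_NN_left x
    rwa [le_zero_iff, map_eq_zero] at h1
  · rintro rfl
    exact NN_zero

theorem NN_ne_zero_iff {x : F} : NN v₁ v₂ x ≠ 0 ↔ x ≠ 0 := not_congr NN_eq_zero_iff

theorem NN_comm (x : F) : NN v₁ v₂ x = NN v₂ v₁ x := max_comm _ _

theorem NN_self (v : Valuation F Γ₀) (x : F) : NN v v x = v x := max_self _

theorem NN_add_le (x y : F) : NN v₁ v₂ (x + y) ≤ max (NN v₁ v₂ x) (NN v₁ v₂ y) := by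
  rw [NN_le_iff]
  exact ⟨(v₁.map_add x y).trans (max_le_max (le_NN_left x) (le_NN_left y)),
    (v₂.map_add x y).trans (max_le_max (le_NN_right x) (le_NN_right y))⟩

theorem NN_sub_le (x y : F) : NN v₁ v₂ (x - y) ≤ max (NN v₁ v₂ x) (NN v₁ v₂ y) := by
  rw [sub_eq_add_neg, ← NN_neg (v₁ := v₁) (v₂ := v₂) y]
  exact NN_add_le x (-y)

theorem NN_sub_comm (x y : F) : NN v₁ v₂ (x - y) = NN v₁ v₂ (y - x) := by
  rw [← NN_neg, neg_sub]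

theorem NN_add_le' {x y : F} {γ : Γ₀} (hx : NN v₁ v₂ x ≤ γ) (hy : NN v₁ v₂ y ≤ γ) :
    NN v₁ v₂ (x + y) ≤ γ := (NN_add_le x y).trans (max_le hx hy)

theorem NN_sub_le' {x y : F} {γ : Γ₀} (hx : NN v₁ v₂ x ≤ γ) (hy : NN v₁ v₂ y ≤ γ) :
    NN v₁ v₂ (x - y) ≤ γ := (NN_sub_le x y).trans (max_le hx hy)

theorem NN_add_lt {x y : F} {γ : Γ₀} (hx : NN v₁ v₂ x < γ) (hy : NN v₁ v₂ y < γ) :
    NN v₁ v₂ (x + y) < γ := (NN_add_le x y).trans_lt (max_lt hx hy)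

theorem NN_sub_lt {x y : F} {γ : Γ₀} (hx : NN v₁ v₂ x < γ) (hy : NN v₁ v₂ y < γ) :
    NN v₁ v₂ (x - y) < γ := (NN_sub_le x y).trans_lt (max_lt hx hy)

theorem NN_mul_le (x y : F) : NN v₁ v₂ (x * y) ≤ NN v₁ v₂ x * NN v₁ v₂ y := by
  rw [NN_le_iff, map_mul, map_mul]
  exact ⟨mul_le_mul' (le_NN_left x) (le_NN_left y), mul_le_mul' (le_NN_right x) (le_NN_right y)⟩

theorem NN_mul_le_one {x y : F} (hx : NN v₁ v₂ x ≤ 1) (hy : NN v₁ v₂ y ≤ 1) :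
    NN v₁ v₂ (x * y) ≤ 1 := (NN_mul_le x y).trans (mul_le_one' hx hy)

theorem NN_mul_lt_of_le_one_left {x y : F} {γ : Γ₀} (hx : NN v₁ v₂ x ≤ 1) (hy : NN v₁ v₂ y < γ) :
    NN v₁ v₂ (x * y) < γ :=
  ((NN_mul_le x y).trans (mul_le_of_le_one_left' hx)).trans_lt hy

theorem NN_mul_lt_of_le_one_right {x y : F} {γ : Γ₀} (hx : NN v₁ v₂ x < γ) (hy : NN v₁ v₂ y ≤ 1) :
    NN v₁ v₂ (x * y) < γ :=
  ((NN_mul_le x y).trans (mul_le_of_le_one_right' hy)).trans_lt hx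

theorem NN_pow_le (x : F) (m : ℕ) : NN v₁ v₂ (x ^ m) ≤ NN v₁ v₂ x ^ m := by
  rw [NN_le_iff, map_pow, map_pow]
  exact ⟨pow_le_pow_left' (le_NN_left x) m, pow_le_pow_left' (le_NN_right x) m⟩

/-- in fact the sup norm is power multiplicative -/
theorem NN_pow (x : F) (m : ℕ) : NN v₁ v₂ (x ^ m) = NN v₁ v₂ x ^ m := by
  refine le_antisymm (NN_pow_le x m) ?_
  rcases le_total (v₁ x) (v₂ x) with h | h
  · have : NN v₁ v₂ x = v₂ x := max_eq_right h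
    rw [this, ← map_pow]
    exact le_NN_right _
  · have : NN v₁ v₂ x = v₁ x := max_eq_left h
    rw [this, ← map_pow]
    exact le_NN_left _

theorem NN_pow_le_one {x : F} (hx : NN v₁ v₂ x ≤ 1) (m : ℕ) : NN v₁ v₂ (x ^ m) ≤ 1 :=
  (NN_pow_le x m).trans (pow_le_one' hx m)

theorem NN_mul_of_eq {c : F} (hc : v₁ c = v₂ c) (x : F) :
    NN v₁ v₂ (c * x) = v₁ c * NN v₁ v₂ x := by
  unfold NN
  rw [map_mul, map_mul, ← hc, mul_max]

theorem NN_mul_of_eq' {c : F} (hc : v₁ c = v₂ c) (x : F) :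
    NN v₁ v₂ (x * c) = NN v₁ v₂ x * v₁ c := by
  rw [mul_comm, NN_mul_of_eq hc, mul_comm]

theorem NN_of_eq {c : F} (hc : v₁ c = v₂ c) : NN v₁ v₂ c = v₁ c := by
  unfold NN
  rw [← hc, max_self]

theorem NN_mul_of_eq_one {c : F} (h₁ : v₁ c = 1) (h₂ : v₂ c = 1) (x : F) :
    NN v₁ v₂ (c * x) = NN v₁ v₂ x := by
  rw [NN_mul_of_eq (h₁.trans h₂.symm), h₁, one_mul]

theorem NN_sum_le {ι : Type*} (s : Finset ι) (f : ι → F) (γ : Γ₀) (h : ∀ i ∈ s, NN v₁ v₂ (f i) ≤ γ) :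
    NN v₁ v₂ (∑ i ∈ s, f i) ≤ γ := by
  rw [NN_le_iff]
  exact ⟨v₁.map_sum_le fun i hi => (NN_le_iff.mp (h i hi)).1,
    v₂.map_sum_le fun i hi => (NN_le_iff.mp (h i hi)).2⟩

theorem NN_sum_lt {ι : Type*} (s : Finset ι) (f : ι → F) (γ : Γ₀) (hγ : γ ≠ 0)
    (h : ∀ i ∈ s, NN v₁ v₂ (f i) < γ) : NN v₁ v₂ (∑ i ∈ s, f i) < γ := by
  rw [NN_lt_iff]
  exact ⟨v₁.map_sum_lt hγ fun i hi => (NN_lt_iff.mp (h i hi)).1,
    v₂.map_sum_lt hγ fun i hi => (NN_lt_iff.mp (h i hi)).2⟩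

theorem NN_prod_le_one {ι : Type*} (s : Finset ι) (a : ι → F) (ha : ∀ i ∈ s, NN v₁ v₂ (a i) ≤ 1) :
    NN v₁ v₂ (∏ i ∈ s, a i) ≤ 1 := by
  rw [NN_le_iff, map_prod, map_prod]
  exact ⟨Finset.prod_le_one' fun i hi => (NN_le_iff.mp (ha i hi)).1,
    Finset.prod_le_one' fun i hi => (NN_le_iff.mp (ha i hi)).2⟩

/-- the ultrametric "isosceles" principle -/
theorem NN_add_eq_of_lt {x y : F} (h : NN v₁ v₂ y < NN v₁ v₂ x) :
    NN v₁ v₂ (x + y) = NN v₁ v₂ x := by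
  refine le_antisymm (NN_add_le' le_rfl h.le) ?_
  by_contra hlt
  rw [not_le] at hlt
  have h1 : NN v₁ v₂ (x + y - y) < NN v₁ v₂ x := NN_sub_lt hlt h
  rw [add_sub_cancel_right] at h1
  exact lt_irrefl _ h1

theorem NN_eq_one_of_sub_lt {a : F} (ha : NN v₁ v₂ (a - 1) < 1) : NN v₁ v₂ a = 1 := by
  have h := NN_add_eq_of_lt (v₁ := v₁) (v₂ := v₂) (x := 1) (y := a - 1) (by rwa [NN_one])
  rwa [add_sub_cancel, NN_one] at h

theorem NN_eq_of_sub_lt {a b : F} (h : NN v₁ v₂ (a - b) < NN v₁ v₂ b) :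
    NN v₁ v₂ a = NN v₁ v₂ b := by
  have h1 := NN_add_eq_of_lt (v₁ := v₁) (v₂ := v₂) (x := b) (y := a - b) h
  rwa [add_sub_cancel] at h1

/-! ### `Gauss2` -/

theorem Gauss2.aeval_eq (hG : Gauss2 L v₁ v₂ t) (p : L[X]) : v₁ (aeval t p) = v₂ (aeval t p) := by
  apply le_antisymm
  · rw [hG.g₁]
    intro i
    rw [hG.same]
    exact (hG.g₂ p _).mp le_rfl i
  · rw [hG.g₂]
    intro i
    rw [← hG.same]
    exact (hG.g₁ p _).mp le_rfl i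

theorem Gauss2.NN_aeval_mul (hG : Gauss2 L v₁ v₂ t) (p : L[X]) (x : F) :
    NN v₁ v₂ (aeval t p * x) = v₁ (aeval t p) * NN v₁ v₂ x := NN_mul_of_eq (hG.aeval_eq p) x

theorem Gauss2.NN_aeval (hG : Gauss2 L v₁ v₂ t) (p : L[X]) :
    NN v₁ v₂ (aeval t p) = v₁ (aeval t p) := NN_of_eq (hG.aeval_eq p)

theorem Gauss2.NN_algebraMap (hG : Gauss2 L v₁ v₂ t) (c : L) :
    NN v₁ v₂ (algebraMap L F c) = v₁ (algebraMap L F c) := NN_of_eq (hG.same c)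

theorem Gauss2.NN_algebraMap_mul (hG : Gauss2 L v₁ v₂ t) (c : L) (x : F) :
    NN v₁ v₂ (algebraMap L F c * x) = v₁ (algebraMap L F c) * NN v₁ v₂ x :=
  NN_mul_of_eq (hG.same c) x

theorem Gauss2.inv (hG : Gauss2 L v₁ v₂ t) : Gauss2 L v₁ v₂ t⁻¹ := ⟨hG.g₁.inv, hG.g₂.inv, hG.same⟩

theorem Gauss2.symm (hG : Gauss2 L v₁ v₂ t) : Gauss2 L v₂ v₁ t :=
  ⟨hG.g₂, hG.g₁, fun c => (hG.same c).symm⟩

theorem Gauss2.ne_zero (hG : Gauss2 L v₁ v₂ t) : t ≠ 0 := hG.g₁.ne_zero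

theorem Gauss2.NN_t (hG : Gauss2 L v₁ v₂ t) : NN v₁ v₂ t = 1 := by
  unfold NN
  rw [hG.g₁.v_t, hG.g₂.v_t, max_self]

theorem Gauss2.NN_t_pow_mul (hG : Gauss2 L v₁ v₂ t) (m : ℕ) (x : F) :
    NN v₁ v₂ (t ^ m * x) = NN v₁ v₂ x :=
  NN_mul_of_eq_one (by rw [map_pow, hG.g₁.v_t, one_pow]) (by rw [map_pow, hG.g₂.v_t, one_pow]) x

theorem Gauss2.NN_t_inv_pow_mul (hG : Gauss2 L v₁ v₂ t) (m : ℕ) (x : F) :
    NN v₁ v₂ ((t⁻¹) ^ m * x) = NN v₁ v₂ x := hG.inv.NN_t_pow_mul m x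

/-- the Gauss property for the sup norm -/
theorem Gauss2.NN_aeval_le_iff (hG : Gauss2 L v₁ v₂ t) (p : L[X]) (γ : Γ₀) :
    NN v₁ v₂ (aeval t p) ≤ γ ↔ ∀ i, v₁ (algebraMap L F (p.coeff i)) ≤ γ := by
  rw [hG.NN_aeval, hG.g₁]

theorem Gauss2.NN_aeval_lt_iff (hG : Gauss2 L v₁ v₂ t) (p : L[X]) (γ : Γ₀) (hγ : γ ≠ 0) :
    NN v₁ v₂ (aeval t p) < γ ↔ ∀ i, v₁ (algebraMap L F (p.coeff i)) < γ := by
  rw [hG.NN_aeval, hG.g₁.lt_iff p γ hγ]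

/-! ### orthonormal families for the sup norm -/

theorem ON2.inj (hG : Gauss2 L v₁ v₂ t) {d : ℕ} {e : Fin d → F} (he : ON2 L v₁ v₂ t e)
    (p : Fin d → L[X]) (h : comb L t p e = 0) : p = 0 := by
  have h1 := (he p 0).mp (by rw [h, NN_zero])
  funext i
  have h2 := h1 i
  rw [le_zero_iff, map_eq_zero] at h2
  exact hG.g₁.inj _ h2

theorem ON2.lt_iff {d : ℕ} {e : Fin d → F} (he : ON2 L v₁ v₂ t e) (p : Fin d → L[X]) (γ : Γ₀)
    (hγ : γ ≠ 0) : NN v₁ v₂ (comb L t p e) < γ ↔ ∀ i, v₁ (aeval t (p i)) < γ := by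
  constructor
  · intro h i
    exact lt_of_le_of_lt ((he p _).mp le_rfl i) h
  · intro h
    obtain ⟨δ, hδ, hb⟩ := exists_lt_bound Finset.univ (fun i => v₁ (aeval t (p i))) γ hγ
      (fun i _ => h i)
    exact lt_of_le_of_lt ((he p δ).mpr fun i => hb i (Finset.mem_univ i)) hδ

theorem ON2.NN_eq_one {d : ℕ} {e : Fin d → F} (he : ON2 L v₁ v₂ t e) (i : Fin d) :
    NN v₁ v₂ (e i) = 1 := by
  classical
  have h := he (Pi.single i 1)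
  rw [comb_single, map_one, one_mul] at h
  apply le_antisymm
  · rw [h]
    intro j
    by_cases hj : j = i
    · subst hj
      rw [Pi.single_eq_same, map_one, map_one]
    · rw [Pi.single_eq_of_ne hj, map_zero, map_zero]
      exact zero_le
  · have h1 := (h (NN v₁ v₂ (e i))).mp le_rfl i
    rwa [Pi.single_eq_same, map_one, map_one] at h1

theorem ON2.inv (hG : Gauss2 L v₁ v₂ t) {d : ℕ} {e : Fin d → F} (he : ON2 L v₁ v₂ t e) :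
    ON2 L v₁ v₂ t⁻¹ e := by
  intro p γ
  set N := Finset.univ.sup fun i => (p i).natDegree with hN
  have hp : ∀ i, (p i).natDegree ≤ N := fun i =>
    Finset.le_sup (f := fun i => (p i).natDegree) (Finset.mem_univ i)
  rw [comb_inv_eq hG.ne_zero N p hp, hG.NN_t_inv_pow_mul, he]
  refine forall_congr' fun i => ?_
  rw [hG.g₁.v_aeval_inv N (p i) (hp i)]

/-- the value of a combination is attained -/
theorem ON2.le_NN_comb {d : ℕ} {e : Fin d → F} (he : ON2 L v₁ v₂ t e) (p : Fin d → L[X])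
    (i : Fin d) : v₁ (aeval t (p i)) ≤ NN v₁ v₂ (comb L t p e) := (he p _).mp le_rfl i

theorem ON2.exists_NN_comb_eq {d : ℕ} {e : Fin d → F} (he : ON2 L v₁ v₂ t e) (p : Fin d → L[X])
    (hd : 0 < d) : ∃ i, NN v₁ v₂ (comb L t p e) = v₁ (aeval t (p i)) := by
  obtain ⟨i, -, hmax⟩ := Finset.exists_max_image (Finset.univ : Finset (Fin d))
    (fun i => v₁ (aeval t (p i))) ⟨⟨0, hd⟩, Finset.mem_univ _⟩
  exact ⟨i, le_antisymm ((he p _).mpr fun j => hmax j (Finset.mem_univ j)) (he.le_NN_comb p i)⟩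

/-- port of `ON.onB_mul_of_v_eq_one` -/
theorem ON2.mul_of_v_eq_one (hG : Gauss2 L v₁ v₂ t) {d : ℕ} {β : Fin d → F}
    (hβ : ON2 L v₁ v₂ t β) (q : L[X]) (hq : v₁ (aeval t q) = 1) :
    ON2 L v₁ v₂ t (fun i => aeval t q * β i) := by
  intro p γ
  have h : comb L t p (fun i => aeval t q * β i) = aeval t q * comb L t p β := by
    simp only [comb, Finset.mul_sum]
    exact Finset.sum_congr rfl fun i _ => by ring
  rw [h, hG.NN_aeval_mul, hq, one_mul, hβ]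

/-- multiplying an orthonormal family by an element `c` with `v₁ c = v₂ c = 1` -/
theorem ON2.mul_of_eq_one {d : ℕ} {β : Fin d → F} (hβ : ON2 L v₁ v₂ t β) {c : F}
    (h₁ : v₁ c = 1) (h₂ : v₂ c = 1) : ON2 L v₁ v₂ t (fun i => c * β i) := by
  intro p γ
  have h : comb L t p (fun i => c * β i) = c * comb L t p β := by
    simp only [comb, Finset.mul_sum]
    exact Finset.sum_congr rfl fun i _ => by ring
  rw [h, NN_mul_of_eq_one h₁ h₂, hβ]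

end Fermat.Agent.SS
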